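import Mathlib.LinearAlgebra.Matrix.NonsingularInverse
import Mathlib.LinearAlgebra.Matrix.Trace
import Mathlib.LinearAlgebra.Dimension.Constructions
import Mathlib.LinearAlgebra.Dimension.StrongRankCondition
import Mathlib.LinearAlgebra.FiniteDimensional.Basic
import Mathlib.LinearAlgebra.Matrix.ToLin
import Mathlib.Algebra.Group.Units.Hom
import Mathlib.RingTheory.LocalRing.RingHom.Basic

/-!
# S31, piece A — the linear-algebra core of the trace criterion (helper105)

Let `φ : T → K` be a local ring homomorphism from a commutative ring to a field and let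
`M : G → Matrix ι ι T` be a family of square matrices whose reductions `(M g).map φ` span
`Matrix ι ι K` over `K`.  Then the trace form detects `0` on the family:
`(∀ g, trace (M g * N) = 0) → N = 0`.

Proof: choose `g_{ij}` (`(i, j) ∈ ι × ι`) with `(M g_{ij}).map φ` linearly independent; the square
matrix `D` with rows the flattened `M g_{ij}` has `φ (det D) = det (D.map φ) ≠ 0`, so `det D` is a
unit and `D` is invertible over `T`; the hypothesis says `D *ᵥ n = 0` for the flattened transpose
`n` of `N`.  No Nakayama lemma and no finiteness hypothesis on `T` is needed.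
-/

set_option autoImplicit false

namespace Fermat.Agent.S31.H105

open Matrix Module

section Core

variable {T : Type*} [CommRing T] {K : Type*} [Field K] (φ : T →+* K)
variable {ι : Type*} [Fintype ι] [DecidableEq ι]

/-- Flattening a square matrix into a vector indexed by pairs. -/
def flat {R : Type*} (A : Matrix ι ι R) : ι × ι → R := fun kl => A kl.1 kl.2

omit [Fintype ι] [DecidableEq ι] in
theorem flat_injective {R : Type*} : Function.Injective (flat : Matrix ι ι R → ι × ι → R) := by
  intro A B h
  ext i j
  exact congrFun h (i, j)

/-- Flattening as a linear map. -/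
def flatLin (R : Type*) [Semiring R] : Matrix ι ι R →ₗ[R] (ι × ι → R) where
  toFun := flat
  map_add' _ _ := rfl
  map_smul' _ _ := rfl

omit [Fintype ι] [DecidableEq ι] in
theorem flatLin_injective (R : Type*) [Semiring R] :
    Function.Injective (flatLin (ι := ι) R) := flat_injective

omit [DecidableEq ι] in
theorem trace_mul_eq_sum_flat (A N : Matrix ι ι T) :
    Matrix.trace (A * N) = ∑ kl : ι × ι, flat A kl * N kl.2 kl.1 := by
  rw [Fintype.sum_prod_type]
  simp only [Matrix.trace, Matrix.diag_apply, Matrix.mul_apply, flat]

/-- The linear-algebra core of the trace criterion. -/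
theorem matrix_eq_zero_of_trace_mul_eq_zero [IsLocalHom φ] {G : Type*} (M : G → Matrix ι ι T)
    (hspan : Submodule.span K (Set.range fun g => (M g).map φ) = ⊤)
    (N : Matrix ι ι T) (hN : ∀ g, Matrix.trace (M g * N) = 0) : N = 0 := by
  classical
  -- extract a linearly independent family of the right cardinality
  obtain ⟨f, hf_mem, -, hf_li⟩ :=
    Submodule.exists_fun_fin_finrank_span_eq K (Set.range fun g => (M g).map φ)
  have hcard : Fintype.card (ι × ι) =
      Fintype.card (Fin (finrank K (Submodule.span K (Set.range fun g => (M g).map φ)))) := by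
    rw [hspan, finrank_top, Module.finrank_matrix, Module.finrank_self, mul_one,
      Fintype.card_fin, Fintype.card_prod]
  let e : ι × ι ≃ Fin (finrank K (Submodule.span K (Set.range fun g => (M g).map φ))) :=
    Fintype.equivOfCardEq hcard
  choose g hg using fun ij : ι × ι => hf_mem (e ij)
  -- the square matrix of flattened `M (g ij)`
  let D : Matrix (ι × ι) (ι × ι) T := Matrix.of fun ij => flat (M (g ij))
  have hli : LinearIndependent K (fun ij : ι × ι => (M (g ij)).map φ) := by
    have h1 : LinearIndependent K (f ∘ e) := hf_li.comp _ e.injective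
    have h2 : (fun ij : ι × ι => (M (g ij)).map φ) = f ∘ e := by
      funext ij
      exact hg ij
    rw [h2]
    exact h1
  have hrows : LinearIndependent K (D.map φ).row := by
    have h3 := hli.map' (flatLin K) (LinearMap.ker_eq_bot.mpr (flatLin_injective K))
    have h4 : (D.map φ).row = (flatLin K) ∘ (fun ij : ι × ι => (M (g ij)).map φ) := by
      funext ij kl
      rfl
    rw [h4]
    exact h3
  have hunitK : IsUnit (D.map φ).det :=
    (Matrix.isUnit_iff_isUnit_det _).mp (Matrix.linearIndependent_rows_iff_isUnit.mp hrows)
  have hdet : (D.map φ).det = φ D.det := by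
    rw [RingHom.map_det]
    rfl
  have hunitT : IsUnit D.det := by
    rw [hdet] at hunitK
    exact isUnit_of_map_unit φ _ hunitK
  have hDunit : IsUnit D := (Matrix.isUnit_iff_isUnit_det D).mpr hunitT
  -- the flattened transpose of `N` is killed by `D`
  have hkill : D *ᵥ (fun kl : ι × ι => N kl.2 kl.1) = 0 := by
    funext ij
    have := hN (g ij)
    rw [trace_mul_eq_sum_flat] at this
    simpa [Matrix.mulVec, dotProduct, D] using this
  have hzero : (fun kl : ι × ι => N kl.2 kl.1) = 0 :=
    Matrix.mulVec_injective_of_isUnit hDunit (by rw [hkill, Matrix.mulVec_zero])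
  ext i j
  exact congrFun hzero (j, i)

end Core

end Fermat.Agent.S31.H105
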