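import Fermat.Prelude.Def_GaloisRep_Adic
import Fermat.Agent.S29.H872.Quadratic
import Fermat.Agent.S31.H105.TraceCore
import Mathlib.RingTheory.TensorProduct.Free
import Mathlib.FieldTheory.IsAlgClosed.AlgebraicClosure

/-!
# S31, piece A — the trace criterion (helper105)

`trace_criterion`: if `ρ : G_ℚ → GL(V)`, `V` free of rank 2 over a local ring `T`, is residually
absolutely irreducible and `tr ρ(g τ) = tr ρ(g)` for all `g`, then `ρ(τ) = 1`.

Proof: Burnside over `k̄` (landed `Fermat.Agent.S29.H872.span_range_eq_top`) shows that the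
matrices of `ρ̄(g)` span `M₂(k̄)`; the determinant argument of `TraceCore.lean` then shows that the
trace form of `M₂(T)` detects `0` on the matrices of `ρ(g)`.
-/

set_option autoImplicit false

namespace Fermat.Agent.S31.H105

open Module

section

variable {T : Type} [CommRing T] [IsLocalRing T]

/-- The composite `T → k → k̄`. -/
noncomputable def toAlgClosure (T : Type) [CommRing T] [IsLocalRing T] :
    T →+* AlgebraicClosure (IsLocalRing.ResidueField T) :=
  (algebraMap (IsLocalRing.ResidueField T) (AlgebraicClosure (IsLocalRing.ResidueField T))).comp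
    (IsLocalRing.residue T)

instance toAlgClosure_isLocalHom : IsLocalHom (toAlgClosure T) := by
  refine ⟨fun a ha => ?_⟩
  have h1 : toAlgClosure T a ≠ 0 := ha.ne_zero
  have h2 : IsLocalRing.residue T a ≠ 0 := by
    intro h0
    apply h1
    simp [toAlgClosure, h0]
  by_contra hna
  exact h2 ((IsLocalRing.residue_eq_zero_iff a).mpr
    ((IsLocalRing.mem_maximalIdeal a).mpr hna))

/-- **Piece A** of row S31: the trace criterion. -/
theorem trace_criterion (ρ : GaloisRepAdic T)
    (hirr : ρ.residual.IsAbsolutelyIrreducible)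
    (τ : AlgebraicClosure ℚ ≃ₐ[ℚ] AlgebraicClosure ℚ)
    (h : ∀ g : AlgebraicClosure ℚ ≃ₐ[ℚ] AlgebraicClosure ℚ,
      ρ.trace (g * τ) = ρ.trace g) : ρ.ρ τ = 1 := by
  classical
  let k := IsLocalRing.ResidueField T
  let kb := AlgebraicClosure k
  let b := Module.Free.chooseBasis T ρ.V
  let bk := Algebra.TensorProduct.basis k b
  let bkb := Algebra.TensorProduct.basis kb bk
  let rb := ρ.residual.baseChange kb
  -- Burnside over the algebraic closure
  have : Module.Finite kb rb.V := inferInstance
  have : Nontrivial rb.V := by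
    apply Module.nontrivial_of_finrank_pos (R := kb)
    rw [rb.finrank_eq]
    norm_num
  have hspanEnd : Submodule.span kb (Set.range rb.ρ) = ⊤ :=
    Fermat.Agent.S29.H872.span_range_eq_top rb.ρ
      (fun W hW => hirr W fun σ x hx => hW σ hx)
  -- matrices
  let M : (AlgebraicClosure ℚ ≃ₐ[ℚ] AlgebraicClosure ℚ) →
      Matrix (Module.Free.ChooseBasisIndex T ρ.V) (Module.Free.ChooseBasisIndex T ρ.V) T :=
    fun g => LinearMap.toMatrix b b (ρ.ρ g)
  have hM : ∀ g, LinearMap.toMatrix bkb bkb (rb.ρ g) = (M g).map (toAlgClosure T) := by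
    intro g
    have h1 : LinearMap.toMatrix bkb bkb (rb.ρ g) =
        (LinearMap.toMatrix bk bk (ρ.residual.ρ g)).map (algebraMap k kb) :=
      LinearMap.toMatrix_baseChange kb (ρ.residual.ρ g) bk bk
    have h2 : LinearMap.toMatrix bk bk (ρ.residual.ρ g) =
        (LinearMap.toMatrix b b (ρ.ρ g)).map (algebraMap T k) :=
      LinearMap.toMatrix_baseChange k (ρ.ρ g) b b
    rw [h1, h2, Matrix.map_map]
    rfl
  have hspan : Submodule.span kb (Set.range fun g => (M g).map (toAlgClosure T)) = ⊤ := by
    rw [eq_top_iff]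
    intro X _
    have hY : (LinearMap.toMatrix bkb bkb).symm X ∈ Submodule.span kb (Set.range rb.ρ) := by
      rw [hspanEnd]
      trivial
    have hX := Submodule.apply_mem_span_image_of_mem_span
      (LinearMap.toMatrix bkb bkb).toLinearMap hY
    rw [LinearEquiv.coe_coe, LinearEquiv.apply_symm_apply] at hX
    refine Submodule.span_mono ?_ hX
    rintro _ ⟨_, ⟨g, rfl⟩, rfl⟩
    exact ⟨g, (hM g).symm⟩
  -- the trace hypothesis
  have hN : ∀ g, Matrix.trace (M g * (M τ - 1)) = 0 := by
    intro g
    have h4 : M g * M τ = LinearMap.toMatrix b b (ρ.ρ (g * τ)) := by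
      rw [map_mul]
      exact (LinearMap.toMatrix_mul b (ρ.ρ g) (ρ.ρ τ)).symm
    rw [mul_sub, mul_one, Matrix.trace_sub, h4, ← LinearMap.trace_eq_matrix_trace T b,
      ← LinearMap.trace_eq_matrix_trace T b]
    exact sub_eq_zero.mpr (h g)
  have hzero : M τ - 1 = 0 :=
    matrix_eq_zero_of_trace_mul_eq_zero (toAlgClosure T) M hspan (M τ - 1) hN
  have hone : LinearMap.toMatrix b b (ρ.ρ τ) = LinearMap.toMatrix b b 1 := by
    rw [LinearMap.toMatrix_one]
    exact sub_eq_zero.mp hzero
  exact (LinearMap.toMatrix b b).injective hone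

end

end Fermat.Agent.S31.H105
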