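import Fermat.Agent.S31.Defs
import Fermat.Agent.S31.H105.TraceCriterion

/-!
# S31, piece A in the exact skeleton shape (helper105)

`Skeleton.trace_criterion` verbatim; proof in `TraceCriterion.lean`.
-/

set_option autoImplicit false

namespace Fermat.Agent.S31.H105

open Fermat.Agent.S31

/-- **A** (skeleton shape).  If `ρ` is residually absolutely irreducible and
`tr ρ(g τ) = tr ρ(g)` for all `g`, then `ρ(τ) = 1`. -/
theorem trace_criterion_skel {T : Type} [CommRing T] [IsLocalRing T] (ρ : GaloisRepAdic T)
    (hirr : ρ.residual.IsAbsolutelyIrreducible) (τ : GQ)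
    (h : ∀ g : GQ, ρ.trace (g * τ) = ρ.trace g) : ρ.ρ τ = 1 :=
  trace_criterion ρ hirr τ h

end Fermat.Agent.S31.H105
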